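/-
Programme JAC (S25), chapter Core.  Owner: helper36.

The constant two-chart family `(B ⊗[k] A0 → B ⊗[k] A01 ← B ⊗[k] A1; 1 ⊗ t, 1 ⊗ s)` attached to
CURVE data `(A0 → A01 ← A1; t, s)` over `k` and a `k`-algebra `B`, its functoriality in `B`
(`FamilyHom`), and the rigidifying algebra structure `B ⊗[k] A01 → B` of a base point
`e : A01 →ₐ[k] k`.

The `Algebra (B ⊗[k] A) (B ⊗[k] A')` structure is a *scoped* instance: write
`open scoped Fermat.Agent.JAC.Core.ConstFamily36` to use it.
-/
import Mathlib
import Fermat.Agent.JAC.Core.Cart36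

set_option autoImplicit false

universe u

namespace Fermat.Agent.JAC.Core.ConstFamily36

open scoped TensorProduct
open Fermat.Agent.JAC.Core.Defs36 Fermat.Agent.JAC.Core.Cart36

variable (k : Type u) [CommRing k] (B : Type u) [CommRing B] [Algebra k B]

section Algebra

variable (A A' : Type u) [CommRing A] [CommRing A'] [Algebra k A] [Algebra k A'] [Algebra A A']
  [IsScalarTower k A A']

/-- The `B`-algebra map `B ⊗[k] A → B ⊗[k] A'` induced by `A → A'`. -/
noncomputable def tensorMap : B ⊗[k] A →ₐ[B] B ⊗[k] A' :=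
  Algebra.TensorProduct.map (AlgHom.id B B) (IsScalarTower.toAlgHom k A A')

@[simp]
theorem tensorMap_tmul (b : B) (a : A) :
    tensorMap k B A A' (b ⊗ₜ a) = b ⊗ₜ algebraMap A A' a := rfl

/-- `B ⊗[k] A'` as an algebra over `B ⊗[k] A` (scoped instance). -/
noncomputable scoped instance tensorAlgebra : Algebra (B ⊗[k] A) (B ⊗[k] A') :=
  (tensorMap k B A A').toRingHom.toAlgebra

theorem algebraMap_tensor_apply (x : B ⊗[k] A) :
    algebraMap (B ⊗[k] A) (B ⊗[k] A') x = tensorMap k B A A' x := rfl

@[simp]
theorem algebraMap_tensor_tmul (b : B) (a : A) :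
    algebraMap (B ⊗[k] A) (B ⊗[k] A') (b ⊗ₜ a) = b ⊗ₜ algebraMap A A' a := rfl

instance isScalarTower_tensor : IsScalarTower B (B ⊗[k] A) (B ⊗[k] A') :=
  IsScalarTower.of_algebraMap_eq' (by
    ext b
    simp [algebraMap_tensor_apply, Algebra.TensorProduct.algebraMap_apply])

/-- `B ⊗[k] A'` is the localisation of `B ⊗[k] A` at `1 ⊗ t` if `A'` is the localisation of `A`
at `t`. -/
instance isLocalization_away_tensor (t : A) [IsLocalization.Away t A'] :
    IsLocalization.Away ((1 : B) ⊗ₜ[k] t) (B ⊗[k] A') := by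
  have h := IsLocalization.tensorProduct_tensorProduct_right k B (Submonoid.powers t) A'
    (by
      ext a
      simp [algebraMap_tensor_apply])
  have e : (Submonoid.powers t).map (Algebra.TensorProduct.includeRight (R := k) (A := B)) =
      Submonoid.powers ((1 : B) ⊗ₜ[k] t) := by
    rw [Submonoid.map_powers]
    rfl
  rw [e] at h
  exact h

end Algebra

section FamilyHom

variable {k B}
variable {B' : Type u} [CommRing B'] [Algebra k B'] (ψ : B →ₐ[k] B')
  {A0 A1 A01 : Type u} [CommRing A0] [CommRing A1] [CommRing A01] [Algebra k A0] [Algebra k A1]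
  [Algebra k A01] [Algebra A0 A01] [Algebra A1 A01] [IsScalarTower k A0 A01]
  [IsScalarTower k A1 A01] (t : A0) (s : A1)

/-- The morphism of constant families induced by a `k`-algebra map `B → B'`. -/
noncomputable def familyHom :
    FamilyHom ((1 : B) ⊗ₜ[k] t) ((1 : B) ⊗ₜ[k] s) ((1 : B') ⊗ₜ[k] t) ((1 : B') ⊗ₜ[k] s)
      (B ⊗[k] A01) (B' ⊗[k] A01) where
  ψ0 := (Algebra.TensorProduct.map ψ (AlgHom.id k A0)).toRingHom
  ψ1 := (Algebra.TensorProduct.map ψ (AlgHom.id k A1)).toRingHom
  ψ01 := (Algebra.TensorProduct.map ψ (AlgHom.id k A01)).toRingHom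
  comm0 r := by
    induction r using TensorProduct.induction_on with
    | zero => simp
    | tmul b a => simp
    | add x y hx hy => simp only [map_add, hx, hy]
  comm1 r := by
    induction r using TensorProduct.induction_on with
    | zero => simp
    | tmul b a => simp
    | add x y hx hy => simp only [map_add, hx, hy]
  map_t := by simp
  map_s := by simp

end FamilyHom

section Rigid

variable {k}
variable {A01 : Type u} [CommRing A01] [Algebra k A01] (e : A01 →ₐ[k] k)

/-- The rigidifying map `B ⊗[k] A01 → B`, `b ⊗ a ↦ b * e a`, of a base point `e`. -/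
noncomputable def rigHom : B ⊗[k] A01 →ₐ[B] B :=
  Algebra.TensorProduct.lift (AlgHom.id B B) ((Algebra.ofId k B).comp e) (fun _ _ => .all _ _)

@[simp]
theorem rigHom_tmul (b : B) (a : A01) : rigHom B e (b ⊗ₜ a) = b * algebraMap k B (e a) := by
  simp [rigHom, Algebra.ofId_apply]

/-- `B` as an algebra over `B ⊗[k] A01` through the base point `e` (a def, not an instance: use
`letI := rigAlgebra B e`). -/
@[reducible] noncomputable def rigAlgebra : Algebra (B ⊗[k] A01) B :=
  (rigHom B e).toRingHom.toAlgebra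

end Rigid

end Fermat.Agent.JAC.Core.ConstFamily36
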