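/-
Programme JAC (S25), chapter Core.  Owner: helper36.

Bundled form of the DIAGRAM block of the pinned plan (report #121):
a *line diagram* over a two-chart family `(R0 → R01 ← R1; t, s)` is a diagram of modules
`M0 --rho0--> M01 <--rho1-- M1` with `M0`, `M1` invertible over `R0`, `R1` and `rho0`, `rho1`
localisations at the powers of `t`, `s`.  This file only packages; all theorems elsewhere are
stated unbundled and applied through the projections below.
-/
import Mathlib

set_option autoImplicit false

universe u

namespace Fermat.Agent.JAC.Core.Defs36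

open scoped TensorProduct

variable {R0 R1 R01 : Type u} [CommRing R0] [CommRing R1] [CommRing R01]
  [Algebra R0 R01] [Algebra R1 R01]

/-- A line bundle on the two-chart curve, as a diagram of modules. -/
structure LineDiag (t : R0) (s : R1) (R01 : Type u) [CommRing R01] [Algebra R0 R01]
    [Algebra R1 R01] where
  M0 : Type u
  M1 : Type u
  M01 : Type u
  [addCommGroup0 : AddCommGroup M0]
  [addCommGroup1 : AddCommGroup M1]
  [addCommGroup01 : AddCommGroup M01]
  [module0 : Module R0 M0]
  [module1 : Module R1 M1]
  [module01 : Module R01 M01]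
  [module0' : Module R0 M01]
  [module1' : Module R1 M01]
  [isScalarTower0 : IsScalarTower R0 R01 M01]
  [isScalarTower1 : IsScalarTower R1 R01 M01]
  rho0 : M0 →ₗ[R0] M01
  rho1 : M1 →ₗ[R1] M01
  [isLocalizedModule0 : IsLocalizedModule (Submonoid.powers t) rho0]
  [isLocalizedModule1 : IsLocalizedModule (Submonoid.powers s) rho1]
  [invertible0 : Module.Invertible R0 M0]
  [invertible1 : Module.Invertible R1 M1]

namespace LineDiag

attribute [instance] addCommGroup0 addCommGroup1 addCommGroup01 module0 module1 module01
  module0' module1' isScalarTower0 isScalarTower1 isLocalizedModule0 isLocalizedModule1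
  invertible0 invertible1

variable {t : R0} {s : R1}

/-- An isomorphism of line diagrams: linear equivalences on the three vertices commuting with the
two localisation maps. -/
structure Iso (N N' : LineDiag t s R01) where
  e0 : N.M0 ≃ₗ[R0] N'.M0
  e1 : N.M1 ≃ₗ[R1] N'.M1
  e01 : N.M01 ≃ₗ[R01] N'.M01
  comm0 : ∀ x, e01 (N.rho0 x) = N'.rho0 (e0 x)
  comm1 : ∀ y, e01 (N.rho1 y) = N'.rho1 (e1 y)

namespace Iso

/-- The identity isomorphism. -/
def refl (N : LineDiag t s R01) : Iso N N where
  e0 := LinearEquiv.refl _ _
  e1 := LinearEquiv.refl _ _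
  e01 := LinearEquiv.refl _ _
  comm0 _ := rfl
  comm1 _ := rfl

/-- The inverse isomorphism. -/
def symm {N N' : LineDiag t s R01} (e : Iso N N') : Iso N' N where
  e0 := e.e0.symm
  e1 := e.e1.symm
  e01 := e.e01.symm
  comm0 x := by
    apply e.e01.injective
    rw [LinearEquiv.apply_symm_apply, e.comm0, LinearEquiv.apply_symm_apply]
  comm1 y := by
    apply e.e01.injective
    rw [LinearEquiv.apply_symm_apply, e.comm1, LinearEquiv.apply_symm_apply]

/-- Composition of isomorphisms. -/
def trans {N N' N'' : LineDiag t s R01} (e : Iso N N') (e' : Iso N' N'') : Iso N N'' where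
  e0 := e.e0.trans e'.e0
  e1 := e.e1.trans e'.e1
  e01 := e.e01.trans e'.e01
  comm0 x := by simp [e.comm0, e'.comm0]
  comm1 y := by simp [e.comm1, e'.comm1]

end Iso

/-- The setoid of isomorphism on line diagrams. -/
instance setoid (t : R0) (s : R1) (R01 : Type u) [CommRing R01] [Algebra R0 R01]
    [Algebra R1 R01] : Setoid (LineDiag t s R01) where
  r N N' := Nonempty (Iso N N')
  iseqv := ⟨fun N => ⟨Iso.refl N⟩, fun ⟨e⟩ => ⟨e.symm⟩, fun ⟨e⟩ ⟨e'⟩ => ⟨e.trans e'⟩⟩

/-- Isomorphism classes of line diagrams (a large type; `Small.{u}` is proved elsewhere). -/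
def Classes (t : R0) (s : R1) (R01 : Type u) [CommRing R01] [Algebra R0 R01]
    [Algebra R1 R01] : Type (u + 1) :=
  Quotient (setoid t s R01)

/-- The trivial line diagram `R0 → R01 ← R1`. -/
def unit (t : R0) (s : R1) (R01 : Type u) [CommRing R01] [Algebra R0 R01] [Algebra R1 R01]
    [IsLocalization.Away t R01] [IsLocalization.Away s R01] : LineDiag t s R01 where
  M0 := R0
  M1 := R1
  M01 := R01
  rho0 := Algebra.linearMap R0 R01
  rho1 := Algebra.linearMap R1 R01
  isLocalizedModule0 := (isLocalizedModule_iff_isLocalization).mpr inferInstance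
  isLocalizedModule1 := (isLocalizedModule_iff_isLocalization).mpr inferInstance

/-- `H⁰` of a line diagram, as an additive subgroup of `M0 × M1`. -/
def H0 (N : LineDiag t s R01) : AddSubgroup (N.M0 × N.M1) where
  carrier := {p | N.rho0 p.1 = N.rho1 p.2}
  zero_mem' := by simp
  add_mem' := by
    intro a b ha hb
    simp only [Set.mem_ofPred_eq, Prod.fst_add, Prod.snd_add, map_add] at *
    rw [ha, hb]
  neg_mem' := by
    intro a ha
    simp only [Set.mem_ofPred_eq, Prod.fst_neg, Prod.snd_neg, map_neg] at *
    rw [ha]

/-- A rigidification datum along a ring map `e : R01 →+* B`: the base change of `M01` along `e`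
is free of rank one.  (`B` is an `R01`-algebra through `e`.) -/
def IsRigid {B : Type u} [CommRing B] [Algebra R01 B] (N : LineDiag t s R01) : Prop :=
  Nonempty (B ⊗[R01] N.M01 ≃ₗ[B] B)

theorem IsRigid.of_iso {B : Type u} [CommRing B] [Algebra R01 B] {N N' : LineDiag t s R01}
    (e : Iso N N') (h : IsRigid (B := B) N) : IsRigid (B := B) N' := by
  obtain ⟨f⟩ := h
  exact ⟨(TensorProduct.AlgebraTensorModule.congr (LinearEquiv.refl B B) e.e01.symm).trans f⟩

end LineDiag

end Fermat.Agent.JAC.Core.Defs36
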