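/-
Programme JAC (S25), chapter Core.  Owner: helper36.

Euler characteristic and degree of a line diagram over a two-chart family of algebras over a field
`K`:  `chi N := h⁰ - h¹` (Čech pair of `K`-linear maps `rho0`, `rho1`; `Frame.ChiCongr65.chiPair`),
`deg N := chi N - chi O`.  Both are invariant under isomorphism.
-/
import Mathlib
import Fermat.Agent.JAC.Core.Defs36
import Fermat.Agent.JAC.Frame.ChiCongr65

set_option autoImplicit false

universe u

namespace Fermat.Agent.JAC.Core.Degree36

open Fermat.Agent.JAC.Core.Defs36 Fermat.Agent.JAC.Frame.ChiCongr65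

variable (K : Type u) [Field K] {R0 R1 R01 : Type u} [CommRing R0] [CommRing R1] [CommRing R01]
  [Algebra K R0] [Algebra K R1] [Algebra K R01] [Algebra R0 R01] [Algebra R1 R01]
  [IsScalarTower K R0 R01] [IsScalarTower K R1 R01] {t : R0} {s : R1}

section KLinear

variable (N : LineDiag t s R01)

/-- The `K`-module structure on `M0` (through `K → R0`). -/
@[reducible] def module0 : Module K N.M0 := Module.compHom N.M0 (algebraMap K R0)

/-- The `K`-module structure on `M1` (through `K → R1`). -/
@[reducible] def module1 : Module K N.M1 := Module.compHom N.M1 (algebraMap K R1)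

/-- The `K`-module structure on `M01` (through `K → R01`). -/
@[reducible] def module01 : Module K N.M01 := Module.compHom N.M01 (algebraMap K R01)

/-- `rho0` as a `K`-linear map. -/
def rho0K : letI := module0 K N; letI := module01 K N; N.M0 →ₗ[K] N.M01 :=
  letI := module0 K N; letI := module01 K N
  { toFun := N.rho0
    map_add' := map_add _
    map_smul' := fun c x => by
      change N.rho0 (algebraMap K R0 c • x) = algebraMap K R01 c • N.rho0 x
      rw [LinearMap.map_smul, IsScalarTower.algebraMap_apply K R0 R01,
        algebraMap_smul R01 (algebraMap K R0 c) (N.rho0 x)] }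

/-- `rho1` as a `K`-linear map. -/
def rho1K : letI := module1 K N; letI := module01 K N; N.M1 →ₗ[K] N.M01 :=
  letI := module1 K N; letI := module01 K N
  { toFun := N.rho1
    map_add' := map_add _
    map_smul' := fun c x => by
      change N.rho1 (algebraMap K R1 c • x) = algebraMap K R01 c • N.rho1 x
      rw [LinearMap.map_smul, IsScalarTower.algebraMap_apply K R1 R01,
        algebraMap_smul R01 (algebraMap K R1 c) (N.rho1 x)] }

omit [Algebra K R1] [IsScalarTower K R1 R01] in
@[simp] theorem rho0K_apply (x : N.M0) : rho0K K N x = N.rho0 x := rfl

omit [Algebra K R0] [IsScalarTower K R0 R01] in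
@[simp] theorem rho1K_apply (y : N.M1) : rho1K K N y = N.rho1 y := rfl

/-- The Euler characteristic `h⁰ - h¹` of a line diagram over a field. -/
noncomputable def chi : ℤ :=
  letI := module0 K N; letI := module1 K N; letI := module01 K N
  chiPair (rho0K K N) (rho1K K N)

end KLinear

/-- The Euler characteristic is invariant under isomorphism. -/
theorem chi_congr {N N' : LineDiag t s R01} (e : LineDiag.Iso N N') : chi K N = chi K N' := by
  let _ := module0 K N; let _ := module1 K N; let _ := module01 K N
  let _ := module0 K N'; let _ := module1 K N'; let _ := module01 K N'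
  unfold chi
  refine chiPair_congr
    (e₀ := { e.e0.toAddEquiv with
      map_smul' := fun c x => by
        change e.e0 (algebraMap K R0 c • x) = algebraMap K R0 c • e.e0 x
        exact map_smul _ _ _ })
    (e₁ := { e.e1.toAddEquiv with
      map_smul' := fun c x => by
        change e.e1 (algebraMap K R1 c • x) = algebraMap K R1 c • e.e1 x
        exact map_smul _ _ _ })
    (e := { e.e01.toAddEquiv with
      map_smul' := fun c x => by
        change e.e01 (algebraMap K R01 c • x) = algebraMap K R01 c • e.e01 x
        exact map_smul _ _ _ })
    (fun x => e.comm0 x) (fun y => e.comm1 y)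

variable [IsLocalization.Away t R01] [IsLocalization.Away s R01]

/-- The degree of a line diagram over a field: `chi N - chi O`. -/
noncomputable def deg (N : LineDiag t s R01) : ℤ :=
  chi K N - chi K (LineDiag.unit t s R01)

theorem deg_congr {N N' : LineDiag t s R01} (e : LineDiag.Iso N N') : deg K N = deg K N' := by
  unfold deg
  rw [chi_congr K e]

@[simp] theorem deg_unit : deg K (LineDiag.unit t s R01) = 0 := sub_self _

/-- The degree on isomorphism classes. -/
noncomputable def degClass : LineDiag.Classes t s R01 → ℤ :=
  Quotient.lift (deg K) (fun _ _ ⟨e⟩ => deg_congr K e)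

end Fermat.Agent.JAC.Core.Degree36
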