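/-
Programme JAC (S25), chapter Core.  Owner: helper36.

THE ALGEBRA-SIDE TARGET.  For CURVE data `(A0 → A01 ← A1; t, s; e)` over a field `k`:
* `Cl B`: isomorphism classes of line diagrams over the constant family `B ⊗[k] A_i`;
* `bc ψ : Cl B → Cl B'` for `ψ : B →ₐ[k] B'` (helper33's `baseChangeHom`);
* `IsRigidCl`, `IsDegZero` and the functor of points `PicZero B` (rigid classes of degree `0` on all
  geometric fibres);
* `AlgAtlas`: the data and properties of an atlas of `PicZero` by pointwise open affine charts.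
  This is exactly what the scheme side (B3.4/B5) consumes.
-/
import Mathlib
import Fermat.Agent.JAC.Core.ConstFamily36
import Fermat.Agent.JAC.Core.Degree36
import Fermat.Agent.JAC.Grp.BaseChange33

set_option autoImplicit false

universe u

namespace Fermat.Agent.JAC.Core.AlgAtlas36

open scoped TensorProduct
open scoped Fermat.Agent.JAC.Core.ConstFamily36
open Fermat.Agent.JAC.Core.Defs36 Fermat.Agent.JAC.Core.Cart36 Fermat.Agent.JAC.Core.ConstFamily36
  Fermat.Agent.JAC.Core.Degree36 Fermat.Agent.JAC.Grp.Diag33 Fermat.Agent.JAC.Grp.BaseChange33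

variable (k : Type u) [Field k] (A0 A1 A01 : Type u) [CommRing A0] [CommRing A1] [CommRing A01]
  [Algebra k A0] [Algebra k A1] [Algebra k A01] [Algebra A0 A01] [Algebra A1 A01]
  [IsScalarTower k A0 A01] [IsScalarTower k A1 A01] (t : A0) (s : A1)
  [IsLocalization.Away t A01] [IsLocalization.Away s A01]

/-- Isomorphism classes of line diagrams over the constant family `B ⊗[k] A_i`. -/
abbrev Cl (B : Type u) [CommRing B] [Algebra k B] : Type (u + 1) :=
  LineDiag.Classes ((1 : B) ⊗ₜ[k] t) ((1 : B) ⊗ₜ[k] s) (B ⊗[k] A01)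

section BaseChange

variable {k} {B B' : Type u} [CommRing B] [CommRing B'] [Algebra k B] [Algebra k B']
  (ψ : B →ₐ[k] B')

/-- The ring map `B ⊗[k] A → B' ⊗[k] A'` induced by `ψ : B → B'` and `A → A'`. -/
noncomputable def bcMap (A A' : Type u) [CommRing A] [CommRing A'] [Algebra k A] [Algebra k A']
    [Algebra A A'] [IsScalarTower k A A'] : B ⊗[k] A →+* B' ⊗[k] A' :=
  (Algebra.TensorProduct.map ψ (IsScalarTower.toAlgHom k A A')).toRingHom

@[simp]
theorem bcMap_tmul (A A' : Type u) [CommRing A] [CommRing A'] [Algebra k A] [Algebra k A']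
    [Algebra A A'] [IsScalarTower k A A'] (b : B) (a : A) :
    bcMap ψ A A' (b ⊗ₜ a) = ψ b ⊗ₜ algebraMap A A' a := rfl

variable {A0 A1 A01 t s} in
/-- Base change of classes of line diagrams along `ψ : B →ₐ[k] B'`. -/
noncomputable def bc : Cl k A0 A1 A01 t s B →* Cl k A0 A1 A01 t s B' :=
  letI : Algebra (B ⊗[k] A0) (B' ⊗[k] A0) := (bcMap ψ A0 A0).toAlgebra
  letI : Algebra (B ⊗[k] A1) (B' ⊗[k] A1) := (bcMap ψ A1 A1).toAlgebra
  letI : Algebra (B ⊗[k] A01) (B' ⊗[k] A01) := (bcMap ψ A01 A01).toAlgebra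
  letI : Algebra (B ⊗[k] A0) (B' ⊗[k] A01) := (bcMap ψ A0 A01).toAlgebra
  letI : Algebra (B ⊗[k] A1) (B' ⊗[k] A01) := (bcMap ψ A1 A01).toAlgebra
  haveI : IsScalarTower (B ⊗[k] A0) (B ⊗[k] A01) (B' ⊗[k] A01) :=
    IsScalarTower.of_algebraMap_eq (fun x => by
      induction x using TensorProduct.induction_on with
      | zero => simp
      | tmul b a => rfl
      | add x y hx hy => simp only [map_add, hx, hy])
  haveI : IsScalarTower (B ⊗[k] A0) (B' ⊗[k] A0) (B' ⊗[k] A01) :=
    IsScalarTower.of_algebraMap_eq (fun x => by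
      induction x using TensorProduct.induction_on with
      | zero => simp
      | tmul b a => rfl
      | add x y hx hy => simp only [map_add, hx, hy])
  haveI : IsScalarTower (B ⊗[k] A1) (B ⊗[k] A01) (B' ⊗[k] A01) :=
    IsScalarTower.of_algebraMap_eq (fun x => by
      induction x using TensorProduct.induction_on with
      | zero => simp
      | tmul b a => rfl
      | add x y hx hy => simp only [map_add, hx, hy])
  haveI : IsScalarTower (B ⊗[k] A1) (B' ⊗[k] A1) (B' ⊗[k] A01) :=
    IsScalarTower.of_algebraMap_eq (fun x => by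
      induction x using TensorProduct.induction_on with
      | zero => simp
      | tmul b a => rfl
      | add x y hx hy => simp only [map_add, hx, hy])
  baseChangeHom (B' ⊗[k] A01) ((1 : B') ⊗ₜ[k] t) ((1 : B') ⊗ₜ[k] s)

end BaseChange

section Conditions

variable {k A0 A1 A01 t s} (e : A01 →ₐ[k] k)

/-- A class of line diagrams over `B` is *rigid* along the base point `e` if the base change of
`M01` along `B ⊗[k] A01 → B`, `b ⊗ a ↦ b * e a`, is free of rank one. -/
def IsRigidCl (B : Type u) [CommRing B] [Algebra k B] (x : Cl k A0 A1 A01 t s B) : Prop :=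
  letI := rigAlgebra B e
  x ∈ rigidSubgroup (t := (1 : B) ⊗ₜ[k] t) (s := (1 : B) ⊗ₜ[k] s) B

/-- A class of line diagrams over `B` has *degree zero* if all its geometric fibres do. -/
def IsDegZero (B : Type u) [CommRing B] [Algebra k B] (x : Cl k A0 A1 A01 t s B) : Prop :=
  ∀ (K : Type u) [Field K] [IsAlgClosed K] [Algebra k K] (ψ : B →ₐ[k] K),
    degClass K (bc ψ x) = 0

/-- The residue field map of a prime of a `k`-algebra, as a `k`-algebra map. -/
noncomputable abbrev toResidue (B : Type u) [CommRing B] [Algebra k B] (p : PrimeSpectrum B) :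
    B →ₐ[k] p.asIdeal.ResidueField :=
  IsScalarTower.toAlgHom k B p.asIdeal.ResidueField

end Conditions

/-- **The algebra-side target**: an atlas of the functor `B ↦ {rigid classes of degree zero}` by
pointwise-defined open affine charts (cf. COORD #327 section II and `Repr/Pointwise10`). -/
structure AlgAtlas (e : A01 →ₐ[k] k) where
  /-- index type of the charts -/
  ι : Type u
  /-- the chart rings -/
  R : ι → Type u
  [commRing : ∀ γ, CommRing (R γ)]
  [algebra : ∀ γ, Algebra k (R γ)]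
  finiteType : ∀ γ, Algebra.FiniteType k (R γ)
  formallySmooth : ∀ γ, Algebra.FormallySmooth k (R γ)
  /-- the universal classes -/
  x : ∀ γ, Cl k A0 A1 A01 t s (R γ)
  x_rigid : ∀ γ, IsRigidCl e (R γ) (x γ)
  x_degZero : ∀ γ, IsDegZero (R γ) (x γ)
  /-- the pointwise predicates on field-valued points -/
  W : ι → ∀ (K : Type u) [Field K] [Algebra k K], Cl k A0 A1 A01 t s K → Prop
  W_iff : ∀ (γ : ι) (K L : Type u) [Field K] [Field L] [Algebra k K] [Algebra k L]
    (ψ : K →ₐ[k] L) (ξ : Cl k A0 A1 A01 t s K), IsRigidCl e K ξ → IsDegZero K ξ →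
    (W γ L (bc ψ ξ) ↔ W γ K ξ)
  inj : ∀ (γ : ι) (B : Type u) [CommRing B] [Algebra k B] (φ ψ : R γ →ₐ[k] B),
    bc φ (x γ) = bc ψ (x γ) → φ = ψ
  mem_iff : ∀ (γ : ι) (B : Type u) [CommRing B] [Algebra k B] (ξ : Cl k A0 A1 A01 t s B),
    IsRigidCl e B ξ → IsDegZero B ξ →
    ((∃ ψ : R γ →ₐ[k] B, bc ψ (x γ) = ξ) ↔
      ∀ p : PrimeSpectrum B, W γ p.asIdeal.ResidueField (bc (toResidue B p) ξ))
  isOpen : ∀ (γ : ι) (B : Type u) [CommRing B] [Algebra k B] (ξ : Cl k A0 A1 A01 t s B),
    IsRigidCl e B ξ → IsDegZero B ξ →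
    IsOpen {p : PrimeSpectrum B | W γ p.asIdeal.ResidueField (bc (toResidue B p) ξ)}
  covers : ∀ (K : Type u) [Field K] [Algebra k K] (ξ : Cl k A0 A1 A01 t s K),
    IsRigidCl e K ξ → IsDegZero K ξ → ∃ γ, W γ K ξ

attribute [instance] AlgAtlas.commRing AlgAtlas.algebra

end Fermat.Agent.JAC.Core.AlgAtlas36
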