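/-
Programme JAC (S25), chapter Core.  Owner: helper36.

Base change of line diagrams, in "fibred" form:
* `IsBaseChangeHom θ`: a semilinear map `θ : P →ₛₗ[φ] P'` exhibits `P'` as the base change of `P`
  along `φ : R →+* R'` (universal property, no `Algebra` instance needed);
* `FamilyHom`: a morphism of two-chart families `(R0 → R01 ← R1; t, s) ⟶ (R0' → R01' ← R1'; t', s')`;
* `LineDiag.CartHom ψ N N'`: a cartesian morphism of line diagrams over `ψ`, i.e. `N'` is (a model
  of) the base change of `N` along `ψ`.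
-/
import Mathlib
import Fermat.Agent.JAC.Core.Defs36

set_option autoImplicit false

universe u

namespace Fermat.Agent.JAC.Core.Cart36

open Fermat.Agent.JAC.Core.Defs36

section IsBaseChangeHom

variable {R R' : Type u} [CommRing R] [CommRing R'] {φ : R →+* R'}
  {P P' : Type u} [AddCommGroup P] [Module R P] [AddCommGroup P'] [Module R' P']

/-- A `φ`-semilinear map `θ : P → P'` exhibits `P'` as the base change `R' ⊗[R] P`: every
`φ`-semilinear map out of `P` into an `R'`-module (in the same universe) factors uniquely through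
`θ` by an `R'`-linear map. -/
def IsBaseChangeHom (θ : P →ₛₗ[φ] P') : Prop :=
  ∀ (Q : Type u) [AddCommGroup Q] [Module R' Q] (g : P →ₛₗ[φ] Q),
    ∃! g' : P' →ₗ[R'] Q, ∀ x, g' (θ x) = g x

/-- Two base changes of the same module are canonically isomorphic. -/
theorem IsBaseChangeHom.exists_linearEquiv {P'' : Type u} [AddCommGroup P''] [Module R' P'']
    {θ : P →ₛₗ[φ] P'} {θ' : P →ₛₗ[φ] P''} (h : IsBaseChangeHom θ) (h' : IsBaseChangeHom θ') :
    ∃ e : P' ≃ₗ[R'] P'', ∀ x, e (θ x) = θ' x := by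
  obtain ⟨a, ha, -⟩ := h P'' θ'
  obtain ⟨b, hb, -⟩ := h' P' θ
  have hba : b.comp a = LinearMap.id := by
    obtain ⟨c, -, hc⟩ := h P' θ
    rw [hc (b.comp a) (fun x => by simp [ha, hb]), hc LinearMap.id (fun x => rfl)]
  have hab : a.comp b = LinearMap.id := by
    obtain ⟨c, -, hc⟩ := h' P'' θ'
    rw [hc (a.comp b) (fun x => by simp [ha, hb]), hc LinearMap.id (fun x => rfl)]
  exact ⟨LinearEquiv.ofLinearMap a b hab hba, ha⟩

end IsBaseChangeHom

variable {R0 R1 R0' R1' : Type u} [CommRing R0] [CommRing R1] [CommRing R0'] [CommRing R1']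

/-- A morphism of two-chart families. -/
structure FamilyHom (t : R0) (s : R1) (t' : R0') (s' : R1') (R01 R01' : Type u)
    [CommRing R01] [Algebra R0 R01] [Algebra R1 R01]
    [CommRing R01'] [Algebra R0' R01'] [Algebra R1' R01'] where
  ψ0 : R0 →+* R0'
  ψ1 : R1 →+* R1'
  ψ01 : R01 →+* R01'
  comm0 : ∀ r, ψ01 (algebraMap R0 R01 r) = algebraMap R0' R01' (ψ0 r)
  comm1 : ∀ r, ψ01 (algebraMap R1 R01 r) = algebraMap R1' R01' (ψ1 r)
  map_t : ψ0 t = t'
  map_s : ψ1 s = s'

variable {R01 R01' : Type u} [CommRing R01] [Algebra R0 R01] [Algebra R1 R01]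
  [CommRing R01'] [Algebra R0' R01'] [Algebra R1' R01'] {t : R0} {s : R1} {t' : R0'} {s' : R1'}

/-- A cartesian morphism of line diagrams over a morphism of families: semilinear maps on the three
vertices commuting with the localisation maps, each exhibiting the target as the base change of the
source.  `N'` is then (a model of) the base change of `N` along `ψ`. -/
structure LineDiag.CartHom (ψ : FamilyHom t s t' s' R01 R01') (N : LineDiag t s R01)
    (N' : LineDiag t' s' R01') where
  f0 : N.M0 →ₛₗ[ψ.ψ0] N'.M0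
  f1 : N.M1 →ₛₗ[ψ.ψ1] N'.M1
  f01 : N.M01 →ₛₗ[ψ.ψ01] N'.M01
  comm0 : ∀ x, f01 (N.rho0 x) = N'.rho0 (f0 x)
  comm1 : ∀ y, f01 (N.rho1 y) = N'.rho1 (f1 y)
  cart0 : IsBaseChangeHom f0
  cart1 : IsBaseChangeHom f1
  cart01 : IsBaseChangeHom f01

end Fermat.Agent.JAC.Core.Cart36
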