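import Mathlib
import Fermat.Agent.JAC.Core.Defs36

set_option autoImplicit false

universe u

namespace Fermat.Agent.JAC.Core.Small31

open Fermat.Agent.JAC.Core.Defs36

variable {R0 R1 R01 : Type u} [CommRing R0] [CommRing R1] [CommRing R01]
  [Algebra R0 R01] [Algebra R1 R01]

/-- Small data describing a line diagram up to isomorphism: presentations of `M0`, `M1` and the
graph of the gluing. -/
structure Datum (R0 R1 : Type u) [CommRing R0] [CommRing R1] : Type u where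
  n0 : ℕ
  n1 : ℕ
  K0 : Submodule R0 (Fin n0 → R0)
  K1 : Submodule R1 (Fin n1 → R1)
  S : Set (((Fin n0 → R0) ⧸ K0) × ℕ × ((Fin n1 → R1) ⧸ K1))

variable {t : R0} {s : R1}

/-- `c` describes `N`. -/
def IsModelOf (N : LineDiag t s R01) (c : Datum R0 R1) : Prop :=
  ∃ (e0 : ((Fin c.n0 → R0) ⧸ c.K0) ≃ₗ[R0] N.M0) (e1 : ((Fin c.n1 → R1) ⧸ c.K1) ≃ₗ[R1] N.M1),
    ∀ a i b, (a, i, b) ∈ c.S ↔ t ^ i • N.rho1 (e1 b) = N.rho0 (e0 a)

theorem exists_isModelOf (N : LineDiag t s R01) : ∃ c : Datum R0 R1, IsModelOf N c := by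
  obtain ⟨n0, π0, hπ0⟩ := Module.Finite.exists_fin' R0 N.M0
  obtain ⟨n1, π1, hπ1⟩ := Module.Finite.exists_fin' R1 N.M1
  let e0 := LinearMap.quotKerEquivOfSurjective π0 hπ0
  let e1 := LinearMap.quotKerEquivOfSurjective π1 hπ1
  refine ⟨⟨n0, n1, LinearMap.ker π0, LinearMap.ker π1,
    {p | t ^ p.2.1 • N.rho1 (e1 p.2.2) = N.rho0 (e0 p.1)}⟩, e0, e1, fun a i b => Iff.rfl⟩

theorem iso_of_isModelOf [IsLocalization.Away t R01] {N N' : LineDiag t s R01} {c : Datum R0 R1}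
    (h : IsModelOf N c) (h' : IsModelOf N' c) : Nonempty (LineDiag.Iso N N') := by
  obtain ⟨e0, e1, hS⟩ := h
  obtain ⟨e0', e1', hS'⟩ := h'
  let E0 : N.M0 ≃ₗ[R0] N'.M0 := e0.symm.trans e0'
  let E1 : N.M1 ≃ₗ[R1] N'.M1 := e1.symm.trans e1'
  let g : N.M0 →ₗ[R0] N'.M01 := N'.rho0 ∘ₗ E0.toLinearMap
  have hg : IsLocalizedModule (Submonoid.powers t) g :=
    IsLocalizedModule.of_linearEquiv_right (Submonoid.powers t) N'.rho0 E0
  let E01r : N.M01 ≃ₗ[R0] N'.M01 := IsLocalizedModule.linearEquiv (Submonoid.powers t) N.rho0 g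
  let E01 : N.M01 ≃ₗ[R01] N'.M01 :=
    E01r.extendScalarsOfIsLocalization (Submonoid.powers t) R01
  have hE01 : ∀ z, E01 z = E01r z := fun z => rfl
  have hcomm0 : ∀ x, E01 (N.rho0 x) = N'.rho0 (E0 x) := fun x => by
    rw [hE01]
    exact IsLocalizedModule.linearEquiv_apply (Submonoid.powers t) N.rho0 g x
  refine ⟨⟨E0, E1, E01, hcomm0, fun y => ?_⟩⟩
  obtain ⟨b, rfl⟩ := e1.surjective y
  obtain ⟨⟨x, ⟨_, i, rfl⟩⟩, hx⟩ := IsLocalizedModule.surj (Submonoid.powers t) N.rho0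
    (N.rho1 (e1 b))
  obtain ⟨a, rfl⟩ := e0.surjective x
  have h1 : t ^ i • N.rho1 (e1 b) = N.rho0 (e0 a) := hx
  have h2 : t ^ i • N'.rho1 (e1' b) = N'.rho0 (e0' a) := (hS' a i b).1 ((hS a i b).2 h1)
  have h3 : t ^ i • E01 (N.rho1 (e1 b)) = t ^ i • N'.rho1 (E1 (e1 b)) := by
    rw [hE01, ← map_smul, h1, ← hE01, hcomm0]
    simp only [E0, E1, LinearEquiv.trans_apply, LinearEquiv.symm_apply_apply]
    exact h2.symm
  exact IsLocalizedModule.smul_injective N'.rho0 (⟨t ^ i, i, rfl⟩ : Submonoid.powers t) h3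

/-- **Isomorphism classes of line diagrams form a small type.** -/
theorem small_classes (t : R0) (s : R1) [IsLocalization.Away t R01] [IsLocalization.Away s R01] :
    Small.{u} (LineDiag.Classes t s R01) := by
  classical
  let f : LineDiag.Classes t s R01 → Datum R0 R1 := fun q => (exists_isModelOf q.out).choose
  refine small_of_injective (f := f) fun q q' hqq' => ?_
  have h1 : IsModelOf q.out (f q) := (exists_isModelOf q.out).choose_spec
  have h2 : IsModelOf q'.out (f q') := (exists_isModelOf q'.out).choose_spec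
  rw [← hqq'] at h2
  have h3 : q.out ≈ q'.out := iso_of_isModelOf h1 h2
  rw [← Quotient.out_eq q, ← Quotient.out_eq q']
  exact Quotient.sound h3

end Fermat.Agent.JAC.Core.Small31
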